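import Fermat.Agent.S44.Cusp.Main

/-!
# S43 / I / CQ / Cusp : `CuspP M A e f` for `f ∈ Dm (M q) e`, `A ∣ q` : two-parameter copy of `S44/Cusp/Desc.lean`
-/

set_option autoImplicit false

open AlgebraicCurve ModularCurve

namespace Fermat.Agent.S43.I.CQ

open Fermat.Agent.ES Fermat.Agent.SS Fermat.Agent.S33
open Fermat.Agent.S44 (CuspP)
open Fermat.Agent.S44.Cusp (CuspK)
open Fermat.Agent.S37.Mod (resF)
open Fermat.Agent.SS.GM2 (RedK Jh Xh XF)
open Fermat.Agent.Crux (A0)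
open Fermat.Agent.Crux.GM (castS)
open Fermat.Agent

/-- TASK S43/CQ-Cusp.  TWO-PARAMETER COPY of `S44.Cusp.cuspP_of_cuspK` (`Fermat/Agent/S44/Cusp/Desc.lean`, 208 lines): there level prime = residue characteristic = exponent = `p`;
here level prime = residue characteristic = `q`, exponent = `e`.  Copy `dvd_ord_of_cusp` (rename, fresh names with prefix `CQ_`) with exponent `e` and then the main proof;
`redTo_of_redK` can be used as it is.  Everything used there (`GM2.exists_invK_gen`, `GM2.exists_field`, `GM2.exists_wK`, `GM2.invKq_of_models`, `Crux.A0_ne_top`, ...) already has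
independent parameters. -/
theorem cuspP_of_cuspK2 (M q e : ℕ) [NeZero M] [NeZero q] (hq : q.Prime) (hqM : ¬ q ∣ M)
    (he : 0 < e) (h : CuspK M q e) (A : ValuationSubring Qb) (hA : A.LiesOverPrime q)
    (f : Dm (M * q) e) :
    CuspP M A e (((f : (FF (M * q))ˣ) : FF (M * q)) : LaurentSeries Qb) := by
  classical
  set W : FF (M * q) := ((f : (FF (M * q))ˣ) : FF (M * q)) with hW
  have hW0 : W ≠ 0 := Units.ne_zero _
  have hfd0 : FiniteDimensional (IntermediateField.adjoin Qb {S24.jN (M * q)}) (FF (M * q)) :=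
    S24.finiteDimensional_FN (M * q)
  have hfd' : FiniteDimensional (IntermediateField.adjoin Qb {(XF M q)⁻¹}) (FF (M * q)) :=
    S24.FF.finiteDimensional_of_transcendental Qb (S24.jN (M * q))
      (GM2.transcendental_XF_inv M q)
  obtain ⟨n, a, b, ha, hb, hab⟩ :=
    GM2.exists_invK_gen (K := Qb) (XF M q)⁻¹ e he W hW0 (fun P => f.2 P)
  obtain ⟨w, hw⟩ := exists_isAL M q hq hqM
  obtain ⟨K₀, hfin, -, -, hS⟩ := GM2.exists_field (M * q) ∅
    ({W} ∪ Finset.univ.image a ∪ Finset.univ.image b)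
  have hnf : NumberField K₀ := ⟨⟩
  have hdvr : IsDiscreteValuationRing (A0 K₀ A) :=
    Crux.isDiscreteValuationRing_of_numberField _ (Crux.A0_ne_top K₀ A hq hA)
  have hfinr : Finite (IsLocalRing.ResidueField (A0 K₀ A)) :=
    GM2.finite_residueField _ (Crux.A0_ne_top K₀ A hq hA)
  obtain ⟨wK, hwK, -⟩ := GM2.exists_wK M q hq w hw K₀
  obtain ⟨W₀, hW₀m, hW₀⟩ := hS W (by simp)
  have hXm : coeffMap (algebraMap K₀ Qb) (castS K₀ (Xh M q)) = (XF M q : LaurentSeries Qb) := by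
    rw [Crux.GM.coeffMap_castS]; rfl
  have hXm' : coeffMap (algebraMap K₀ Qb) (castS K₀ (Xh M q))⁻¹
      = (((XF M q)⁻¹ : FF (M * q)) : LaurentSeries Qb) := by
    rw [map_inv₀, hXm]
    rfl
  have I2 : GM2.InvKq K₀ (M * q) e (castS K₀ (Xh M q))⁻¹ W₀ :=
    GM2.invKq_of_models K₀ (M * q) e (XF M q)⁻¹ W _ W₀ hXm' hW₀ n a b ha hb hab
      (fun i => hS (a i) (by simp)) (fun i => hS (b i) (by simp))
  have hW₀0 : (⟨W₀, hW₀m⟩ : modularFunctionFieldFullC K₀ (M * q)) ≠ 0 := by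
    intro h0
    have h1 : W₀ = 0 := congrArg Subtype.val h0
    rw [h1, map_zero] at hW₀
    exact hW0 (Subtype.ext hW₀.symm)
  obtain ⟨c, φ, hc, hφ, hred, hV⟩ := h (A := A0 K₀ A) (K := K₀)
    (k := IsLocalRing.ResidueField (A0 K₀ A))
    (IsLocalRing.residue (A0 K₀ A)) IsLocalRing.residue_surjective
    (Crux.residue_A0_natCast K₀ A hA) wK hwK ⟨W₀, hW₀m⟩ hW₀0 I2
  have hr : coeffMap (IsLocalRing.ResidueField.map (S44.ResDeg.incl K₀ A))
      (φ : LaurentSeries (IsLocalRing.ResidueField (A0 K₀ A))) ∈ resF M A :=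
    S44.ResDeg.full_le_resF M A (Fermat.Agent.S28.coeffMap_mem_full _ M φ.2)
  refine ⟨coeffMap (IsLocalRing.ResidueField.map (S44.ResDeg.incl K₀ A))
      (φ : LaurentSeries (IsLocalRing.ResidueField (A0 K₀ A))), ?_, hr, ?_, ?_⟩
  · refine ⟨algebraMap K₀ Qb c, (map_ne_zero _).mpr hc, ?_⟩
    have h1 := S44.Cusp.redTo_of_redK K₀ A _ _ hred
    rw [map_mul] at h1
    refine h1.congr ?_ rfl
    rw [mul_comm]
    congr 1
    rw [cst, algebraMap_laurentSeries_eq_single]
    exact coeffMap_single _ _ _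
  · intro h0
    apply hφ
    apply Subtype.ext
    apply Fermat.Agent.Crux.coeffMap_injective _
      (IsLocalRing.ResidueField.map (S44.ResDeg.incl K₀ A)).injective
    rw [h0]
    exact (map_zero _).symm
  · intro Q hQ
    exact S44.Cusp.dvd_ord_of_cusp M e A _ φ hφ hV hr Q hQ

/-- **EXPORT.** -/
theorem cuspP2 (M q e : ℕ) [NeZero M] [NeZero q] (hq : q.Prime) (hqM : ¬ q ∣ M)
    (hadm : Fermat.Agent.Crux.Admissible q M) (he : 0 < e)
    (A : ValuationSubring Qb) (hA : A.LiesOverPrime q) (f : Dm (M * q) e) :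
    CuspP M A e (((f : (FF (M * q))ˣ) : FF (M * q)) : LaurentSeries Qb) :=
  cuspP_of_cuspK2 M q e hq hqM he (Fermat.Agent.S44.Cusp.cuspK_tower M q e hq hqM hadm he) A hA f

end Fermat.Agent.S43.I.CQ
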