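import Fermat.Agent.S44.Cusp.Defs
import Fermat.Agent.S44.XD.Defs
import Fermat.Agent.S44.Const.Red

/-!
# S43 / I / CQ / Defs : the `K`-level statement behind `ConstQ` (analogue of `S44.Cusp.CuspK` for the chart `X`)

`A` a DVR of a number field `K ⊆ ℚ̄` in which `ℓ` is a UNIFORMISER (unramified base), `r : A → k` the residue map (`k` finite), `N = M ℓ`.
`W ∈ F_K(N)ˣ` with `div W ∈ m Div` on the chart `X = j(q^M) j(q^{Mℓ})` (form `InvKq`), `gcd (m, 12) = 1`.
Then a constant multiple of `W` has a nonzero reduction `φ ∈ F_k(M)`, and there is `d : ℤ` such that `φ ^ 12 * XD ^ d` is a unit times an `m`-th power at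
every NON CUSPIDAL valuation ring `V` of `F_k(M)` (`X̄ ∈ V`).
-/

set_option autoImplicit false

open Polynomial ModularCurve

namespace Fermat.Agent.S43.I.CQ

open Fermat.Agent.SS.GM2
open Fermat.Agent.Crux.GM (castS)
open Fermat.Agent.ES (Qb)
open Fermat.Agent.S44.XD (XD)
open Fermat.Agent.S44.Const (IsUnitIn)

/-- **`m ∣ ord (φ^12 XD^d)` at the non cuspidal places, `K`-level, unramified base.** -/
def NCK (M ℓ m : ℕ) [NeZero M] [NeZero ℓ] : Prop :=
  ∀ {A K k : Type} [CommRing A] [IsDomain A] [IsDiscreteValuationRing A] [Field K]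
    [Algebra A K] [IsFractionRing A K] [Algebra K Qb] [Field k] [Finite k]
    (r : A →+* k), Function.Surjective r → r ℓ = 0 → Irreducible ((ℓ : ℕ) : A) →
  ∀ w : modularFunctionFieldFullC K (M * ℓ) →ₐ[K] modularFunctionFieldFullC K (M * ℓ),
    IsALK K M ℓ w →
  ∀ W : modularFunctionFieldFullC K (M * ℓ), W ≠ 0 →
    InvKq K (M * ℓ) m (castS K (Xh M ℓ)) W →
  ∃ (c : K) (φ : modularFunctionFieldFullC k M) (d : ℤ), c ≠ 0 ∧ φ ≠ 0 ∧
    RedK r ((W : LaurentSeries K) * HahnSeries.C c) (φ : LaurentSeries k) ∧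
    ∀ V : ValuationSubring (modularFunctionFieldFullC k M),
      ∀ xb Xb : modularFunctionFieldFullC k M, (xb : LaurentSeries k) = castS k (Xh M ℓ) →
        (Xb : LaurentSeries k) = XD k ℓ → xb ∈ V →
      ∃ η : modularFunctionFieldFullC k M, η ≠ 0 ∧ IsUnitIn V (η ^ m * (φ ^ 12 * Xb ^ d))

end Fermat.Agent.S43.I.CQ
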