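import Fermat.Agent.S36.Base.Dvr
import Fermat.Agent.S33.Good.Desc
import Fermat.Agent.SS.GM2.Desc.Field
import Fermat.Agent.Crux.Main
import Fermat.Agent.S43.QF.Coeff

/-!
# S43 / I / CQ / Field : a function with coefficients in the inertia field `L0 A` is defined over a number field `K₀ ≤ L0 A`,
and `q` is a uniformiser of `A ∩ K₀`.
-/

set_option autoImplicit false

open ModularCurve

namespace Fermat.Agent.S43.I.CQ

open Fermat.Agent.ES
open Fermat.Agent.Crux (A0)

/-- TASK S43/CQ-Field-a.  `SS.GM2.exists_field N ∅ {f}` gives a number field `K₁` and a model `u` of `f` over `K₁` (`HasModel`: unfold it).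
Take `K₀ := K₁ ⊓ S36.Base.L0 A` (finite dimensional: `K₀ ≤ K₁`, e.g. `IntermediateField.finiteDimensional_of_le` / `Module.Finite.of_injective (IntermediateField.inclusion inf_le_left).toLinearMap`).
Every coefficient of `f` lies in `K₁` (it is `algebraMap K₁ Qb (u.coeff n)`) and in `L0 A`, so define `W₀ : LaurentSeries K₀` coefficientwise
(e.g. `HahnSeries.ofSuppBddBelow` / `⟨fun n => ⟨f.coeff n, _⟩, support is a subset of that of f⟩`), `coeffMap (algebraMap K₀ Qb) W₀ = f` by `ext`;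
membership in `modularFunctionFieldFullC K₀ N` is `S33.Good.desc K₀ N W₀` (check the exact namespace with `grep -n "theorem desc" Fermat/Agent/S33/Good/Desc.lean`). -/
theorem exists_field_L0 (N : ℕ) [NeZero N] (A : ValuationSubring Qb) (f : FF N)
    (hf : ∀ n : ℤ, (f : LaurentSeries Qb).coeff n ∈ Fermat.Agent.S36.Base.L0 A) :
    ∃ K₀ : IntermediateField ℚ Qb, FiniteDimensional ℚ K₀ ∧ K₀ ≤ Fermat.Agent.S36.Base.L0 A ∧
      ∃ W₀ : LaurentSeries K₀, W₀ ∈ modularFunctionFieldFullC K₀ N ∧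
        coeffMap (algebraMap K₀ Qb) W₀ = (f : LaurentSeries Qb) := by
  obtain ⟨K₁, hfd, -, -, hmod⟩ := Fermat.Agent.SS.GM2.exists_field N ∅ {f}
  obtain ⟨u, -, hu⟩ := hmod f (Finset.mem_singleton_self f)
  have hK1 : ∀ n : ℤ, (f : LaurentSeries Qb).coeff n ∈ K₁ := by
    intro n
    rw [← hu, coeffMap_coeff]
    exact (u.coeff n).2
  set K₀ : IntermediateField ℚ Qb := K₁ ⊓ Fermat.Agent.S36.Base.L0 A with hK₀
  have hfd0 : FiniteDimensional ℚ K₀ :=
    Module.Finite.of_injective (IntermediateField.inclusion (inf_le_left : K₀ ≤ K₁)).toLinearMap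
      (IntermediateField.inclusion (inf_le_left : K₀ ≤ K₁)).injective
  have hmem : ∀ n : ℤ, (f : LaurentSeries Qb).coeff n ∈ K₀ := fun n =>
    IntermediateField.mem_inf.mpr ⟨hK1 n, hf n⟩
  let W₀ : LaurentSeries K₀ :=
    { coeff := fun n => ⟨(f : LaurentSeries Qb).coeff n, hmem n⟩
      isPWO_support' := by
        refine (f : LaurentSeries Qb).isPWO_support.mono ?_
        intro n hn
        rw [Function.mem_support] at hn
        rw [HahnSeries.mem_support]
        intro h0
        exact hn (Subtype.ext h0) }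
  have hW : coeffMap (algebraMap K₀ Qb) W₀ = (f : LaurentSeries Qb) := by
    ext n
    rw [coeffMap_coeff]
    rfl
  refine ⟨K₀, hfd0, inf_le_right, W₀, ?_, hW⟩
  exact Fermat.Agent.S33.desc K₀ N W₀ (by rw [hW]; exact f.2)

/-- TASK S43/CQ-Field-b.  Copy of `S36.Base.irreducible_natCast` / `exists_unit_mul_pow` / `natCast_mem_nonunits_A0` (`S36/Base/Dvr.lean`) with `Crux.A0 K₀ A`
(`= A ∩ K₀`) instead of `S36.Base.A0 A`: by `S36.Base.exists_zpow_mul_mem hq hA (hx : x ∈ L0 A) h0` every nonzero `x ∈ K₀ ≤ L0 A` is `q ^ n` times a unit of `A`; that unit lies in `K₀`. -/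
theorem irreducible_natCast_A0 {q : ℕ} (hq : q.Prime) {A : ValuationSubring Qb}
    (hA : A.LiesOverPrime q) (K₀ : IntermediateField ℚ Qb)
    (hK : K₀ ≤ Fermat.Agent.S36.Base.L0 A) : Irreducible ((q : ℕ) : A0 K₀ A) :=
  Fermat.Agent.S43.QF.irreducible_q' hq hA K₀ hK

end Fermat.Agent.S43.I.CQ
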