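import Fermat.Agent.S44.Const.Places.Main

/-!
# S43 / I / CQ / Places2 : (CQ4) two-parameter copy of `S44/Const/Places/{Val,Main}`

`q` = residue characteristic of `A` = level prime, `e` = exponent (arbitrary), no cover (`kk = 1`, so no back-step).

From the `K₀`-level conclusion (`RedK r (f' * C γ) φ'`, (NCV), (CUV) over `L = F_{k₀}(M)`), `bc f' = f`, to
`CuspP M A e f ∧ Eis.NC M A e (f ^ T * XD ^ c)`.
-/

set_option autoImplicit false
set_option linter.unusedSectionVars false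

open AlgebraicCurve ModularCurve

namespace Fermat.Agent.S43.I.CQ

open Fermat.Agent.ES (Qb FF kA resA)
open Fermat.Agent.S37.Mod (resF)
open Fermat.Agent.SS (RedTo RedUp cst cstk)
open Fermat.Agent.SS.GM2 (RedK Xh Jh)
open Fermat.Agent.S44 (CuspP Cuspk)
open Fermat.Agent.S44.Eis (jt NCk ALLk HasRed NC)
open Fermat.Agent.S44.XD (XD)
open Fermat.Agent.Crux.GM (castS)
open Fermat.Agent.S44.Const (IsUnitIn)
open Fermat.Agent.S44.Const.Places (Compat bcF dvd_ord_of_unit xb_mem_comap_iff)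

noncomputable section

section Val

variable {M : ℕ} [NeZero M] {A : ValuationSubring Qb} {k₀ : Type*} [Field k₀] (e₀ : k₀ →+* kA A)
  (q e : ℕ) [NeZero q] [NeZero e]

/-- **(a), non-cuspidal places** (residue characteristic `q`, exponent `e`). -/
theorem nck_of_ncv2 (hq : q.Prime) (hA : A.LiesOverPrime q)
    (xb : modularFunctionFieldFullC k₀ M) (hxb : (xb : LaurentSeries k₀) = castS k₀ (Xh M q))
    {ψ : LaurentSeries k₀} (hψ : ψ ∈ modularFunctionFieldFullC k₀ M) (hψ0 : ψ ≠ 0)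
    (h : ∀ W : ValuationSubring (modularFunctionFieldFullC k₀ M), xb ∈ W →
      ∃ y u : modularFunctionFieldFullC k₀ M, u ≠ 0 ∧ u ∈ W ∧ u⁻¹ ∈ W ∧
        (u : LaurentSeries k₀) = (y : LaurentSeries k₀) ^ e * ψ) :
    NCk M A e (coeffMap e₀ ψ) := by
  have hm : coeffMap e₀ ψ ∈ resF M A :=
    Fermat.Agent.S44.ResDeg.full_le_resF M A (Fermat.Agent.S28.coeffMap_mem_full e₀ M hψ)
  refine ⟨hm, fun h0 => hψ0 ((coeffMap e₀).injective (by rw [h0, map_zero])), fun Q hQ => ?_⟩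
  exact dvd_ord_of_unit e₀ e Q hm (h _ ((xb_mem_comap_iff e₀ q hq hA xb hxb Q).2 hQ))

/-- **(a), cuspidal places** (residue characteristic `q`, exponent `e`). -/
theorem cuspk_of_cuv2 (hq : q.Prime) (hA : A.LiesOverPrime q)
    (xb : modularFunctionFieldFullC k₀ M) (hxb : (xb : LaurentSeries k₀) = castS k₀ (Xh M q))
    {ψ : LaurentSeries k₀} (hψ : ψ ∈ modularFunctionFieldFullC k₀ M) (hψ0 : ψ ≠ 0)
    (h : ∀ W : ValuationSubring (modularFunctionFieldFullC k₀ M), xb ∉ W →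
      ∃ y u : modularFunctionFieldFullC k₀ M, u ≠ 0 ∧ u ∈ W ∧ u⁻¹ ∈ W ∧
        (u : LaurentSeries k₀) = (y : LaurentSeries k₀) ^ e * ψ) :
    Cuspk M A e (coeffMap e₀ ψ) := by
  have hm : coeffMap e₀ ψ ∈ resF M A :=
    Fermat.Agent.S44.ResDeg.full_le_resF M A (Fermat.Agent.S28.coeffMap_mem_full e₀ M hψ)
  refine ⟨hm, fun h0 => hψ0 ((coeffMap e₀).injective (by rw [h0, map_zero])), fun Q hQ => ?_⟩
  exact dvd_ord_of_unit e₀ e Q hm
    (h _ (fun hx => absurd ((xb_mem_comap_iff e₀ q hq hA xb hxb Q).1 hx) (not_le.2 hQ)))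

end Val

variable {M : ℕ} [NeZero M] {A : ValuationSubring Qb} {q e : ℕ} [NeZero q] [NeZero e]
  {A₀ K k₀ : Type*} [CommRing A₀] [Field K] [Algebra A₀ K] [Algebra K Qb] [Field k₀]
  {r : A₀ →+* k₀} {e₀ : k₀ →+* kA A}

/-- the reduction of `f` itself. -/
theorem redUp_f (C : Compat A (K := K) r e₀) (f : FF (M * q)) {f' : LaurentSeries K}
    (hf' : coeffMap (algebraMap K Qb) f' = (f : LaurentSeries Qb))
    {γ : K} (hγ : γ ≠ 0) (φ' : modularFunctionFieldFullC k₀ M) (hφ0 : φ' ≠ 0)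
    (hred : RedK r (f' * HahnSeries.C γ) (φ' : LaurentSeries k₀)) :
    RedUp A (f : LaurentSeries Qb) (coeffMap e₀ (φ' : LaurentSeries k₀)) ∧
    coeffMap e₀ (φ' : LaurentSeries k₀) ≠ 0 := by
  refine ⟨?_, fun h0 => hφ0 (Subtype.ext ((coeffMap e₀).injective (h0.trans (map_zero _).symm)))⟩
  rw [← hf']
  exact C.redUp hγ hred

/-- **cuspidal places.** -/
theorem cuspP_of_cuv2 (hq : q.Prime) (hA : A.LiesOverPrime q)
    (C : Compat A (K := K) r e₀) (f : FF (M * q)) {f' : LaurentSeries K}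
    (hf' : coeffMap (algebraMap K Qb) f' = (f : LaurentSeries Qb))
    {γ : K} (hγ : γ ≠ 0) (φ' xb : modularFunctionFieldFullC k₀ M) (hφ0 : φ' ≠ 0)
    (hxb : (xb : LaurentSeries k₀) = castS k₀ (Xh M q))
    (hred : RedK r (f' * HahnSeries.C γ) (φ' : LaurentSeries k₀))
    (cuv : ∀ V : ValuationSubring (modularFunctionFieldFullC k₀ M), xb ∉ V →
      ∃ y : modularFunctionFieldFullC k₀ M, y ≠ 0 ∧ IsUnitIn V (y ^ e * φ')) :
    CuspP M A e (f : LaurentSeries Qb) := by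
  obtain ⟨h1, -⟩ := redUp_f C f hf' hγ φ' hφ0 hred
  refine ⟨_, h1, ?_⟩
  refine cuspk_of_cuv2 e₀ q e hq hA xb hxb φ'.2 (fun h => hφ0 (Subtype.ext h)) fun W hW => ?_
  obtain ⟨y, hy, hu⟩ := cuv W hW
  exact ⟨y, y ^ e * φ', mul_ne_zero (pow_ne_zero e hy) hφ0, hu.1, hu.2, rfl⟩

/-- **non-cuspidal places.** -/
theorem nc_of_ncv2 (hq : q.Prime) (hA : A.LiesOverPrime q)
    (C : Compat A (K := K) r e₀) (f : FF (M * q)) {f' : LaurentSeries K}
    (hf' : coeffMap (algebraMap K Qb) f' = (f : LaurentSeries Qb))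
    {γ : K} (hγ : γ ≠ 0) (φ' xb Xb : modularFunctionFieldFullC k₀ M) (hφ0 : φ' ≠ 0)
    (hxb : (xb : LaurentSeries k₀) = castS k₀ (Xh M q)) (hXb : (Xb : LaurentSeries k₀) = XD k₀ q)
    (hred : RedK r (f' * HahnSeries.C γ) (φ' : LaurentSeries k₀)) (T c : ℤ)
    (ncv : ∀ V : ValuationSubring (modularFunctionFieldFullC k₀ M), xb ∈ V →
      ∃ y : modularFunctionFieldFullC k₀ M, y ≠ 0 ∧ IsUnitIn V (y ^ e * (φ' ^ T * Xb ^ c))) :
    NC M A e ((f : LaurentSeries Qb) ^ T * XD Qb q ^ c) := by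
  have hXb0 : Xb ≠ 0 := fun h => Fermat.Agent.S44.XD.XD_ne_zero (R := k₀) q (by rw [← hXb, h]; rfl)
  obtain ⟨h1, hφb0⟩ := redUp_f C f hf' hγ φ' hφ0 hred
  have h3 : NCk M A e (coeffMap e₀ ((φ' ^ T * Xb ^ c : modularFunctionFieldFullC k₀ M) :
      LaurentSeries k₀)) := by
    refine nck_of_ncv2 e₀ q e hq hA xb hxb (φ' ^ T * Xb ^ c).2
      (fun h => mul_ne_zero (zpow_ne_zero T hφ0) (zpow_ne_zero c hXb0) (Subtype.ext h))
      fun W hW => ?_
    obtain ⟨y, hy, hu⟩ := ncv W hW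
    exact ⟨y, y ^ e * (φ' ^ T * Xb ^ c), mul_ne_zero (pow_ne_zero e hy)
      (mul_ne_zero (zpow_ne_zero T hφ0) (zpow_ne_zero c hXb0)), hu.1, hu.2, rfl⟩
  have e1 : coeffMap e₀ ((φ' ^ T * Xb ^ c : modularFunctionFieldFullC k₀ M) : LaurentSeries k₀)
      = coeffMap e₀ (φ' : LaurentSeries k₀) ^ T * XD (kA A) q ^ c := by
    have e2 : ((φ' ^ T * Xb ^ c : modularFunctionFieldFullC k₀ M) : LaurentSeries k₀)
        = (φ' : LaurentSeries k₀) ^ T * (Xb : LaurentSeries k₀) ^ c := by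
      have := map_mul (modularFunctionFieldFullC k₀ M).val (φ' ^ T) (Xb ^ c)
      rw [map_zpow₀, map_zpow₀] at this
      exact this
    rw [e2, map_mul, map_zpow₀, map_zpow₀, hXb, Fermat.Agent.S44.XD.coeffMap_XD]
  rw [e1] at h3
  exact ⟨_, (Fermat.Agent.S44.Eis.RedUp.zpow h1 hφb0 T).mul
    (Fermat.Agent.S44.Eis.RedUp.zpow (Fermat.Agent.S44.XD.redUp_XD q A)
      (Fermat.Agent.S44.XD.XD_ne_zero q) c), h3⟩

/-- **(CQ4).** -/
theorem nc_cuspP2 (hq : q.Prime) (hA : A.LiesOverPrime q)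
    (C : Compat A (K := K) r e₀) (f : FF (M * q)) {f' : LaurentSeries K}
    (hf' : coeffMap (algebraMap K Qb) f' = (f : LaurentSeries Qb))
    {γ : K} (hγ : γ ≠ 0) (φ' xb Xb : modularFunctionFieldFullC k₀ M) (hφ0 : φ' ≠ 0)
    (hxb : (xb : LaurentSeries k₀) = castS k₀ (Xh M q)) (hXb : (Xb : LaurentSeries k₀) = XD k₀ q)
    (hred : RedK r (f' * HahnSeries.C γ) (φ' : LaurentSeries k₀)) (T c : ℤ)
    (ncv : ∀ V : ValuationSubring (modularFunctionFieldFullC k₀ M), xb ∈ V →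
      ∃ y : modularFunctionFieldFullC k₀ M, y ≠ 0 ∧ IsUnitIn V (y ^ e * (φ' ^ T * Xb ^ c)))
    (cuv : ∀ V : ValuationSubring (modularFunctionFieldFullC k₀ M), xb ∉ V →
      ∃ y : modularFunctionFieldFullC k₀ M, y ≠ 0 ∧ IsUnitIn V (y ^ e * φ')) :
    CuspP M A e (f : LaurentSeries Qb) ∧ NC M A e ((f : LaurentSeries Qb) ^ T * XD Qb q ^ c) :=
  ⟨cuspP_of_cuv2 hq hA C f hf' hγ φ' xb hφ0 hxb hred cuv,
    nc_of_ncv2 hq hA C f hf' hγ φ' xb Xb hφ0 hxb hXb hred T c ncv⟩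

end

end Fermat.Agent.S43.I.CQ
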