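import Fermat.Agent.S43.I.CQ.Defs
import Fermat.Agent.S43.I.CQ.Field
import Fermat.Agent.S43.I.CQ.Places2
import Fermat.Agent.S44.Cover.InvDesc
import Fermat.Agent.S44.Cusp.Desc
import Fermat.Agent.S44.Eis.Sep

/-!
# S43 / I / CQ / Desc : the descent `(ℚ̄, A) → (K₀, A ∩ K₀)`, `K₀ ≤ L0 A` :  `NCK M q e ⟹` the `NC` half of `ConstQ`

`f ∈ Dm (M q) e` with all coefficients in the inertia field `L0 A`.
1. `exists_field_L0` : a number field `K₀ ≤ L0 A` and a model `W₀` of `f` over `K₀`;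
2. `irreducible_natCast_A0` : `q` is a uniformiser of `A ∩ K₀`;
3. `S44.Cover.invKq_K0` : `InvKq` over the FIXED field `K₀` (chart `X`);
4. `NCK`;  5. `nc_of_ncv2` (Places2).
-/

set_option autoImplicit false

open AlgebraicCurve ModularCurve IntermediateField

namespace Fermat.Agent.S43.I.CQ

open Fermat.Agent.ES Fermat.Agent.SS Fermat.Agent.S33
open Fermat.Agent.S37.Mod (resF)
open Fermat.Agent.S44.Eis (NC)
open Fermat.Agent.S44.XD (XD)
open Fermat.Agent.SS.GM2 (RedK Jh Xh XF)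
open Fermat.Agent.Crux (A0)
open Fermat.Agent.Crux.GM (castS)

/-- a prime `r ≠ q` is nonzero in a field in which `q = 0`. -/
theorem CQ_natCast_ne_zero {k : Type*} [Field k] {q : ℕ} (hq : q.Prime) (h0 : ((q : ℕ) : k) = 0)
    {r : ℕ} (hr : r.Prime) (hrq : r ≠ q) : ((r : ℕ) : k) ≠ 0 := by
  intro h
  have hco : Nat.Coprime r q := (Nat.coprime_primes hr hq).2 hrq
  have h1 : ((Nat.gcd r q : ℕ) : k) = 0 := by
    have h2 := Nat.gcd_eq_gcd_ab r q
    have h3 : (((Nat.gcd r q : ℕ) : ℤ) : k) = 0 := by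
      rw [h2]
      push_cast
      rw [h, h0, zero_mul, zero_mul, add_zero]
    exact_mod_cast h3
  rw [hco, Nat.cast_one] at h1
  exact one_ne_zero h1

/-- `X̄ = j̄(q^M)^(q+1) ∈ F_k(M)` for `k` of characteristic `q`. -/
theorem CQ_exists_xb (M q : ℕ) [NeZero M] [NeZero q] (hq : q.Prime) (k : Type*) [Field k]
    (h0 : ((q : ℕ) : k) = 0) :
    ∃ xb : modularFunctionFieldFullC k M, (xb : LaurentSeries k) = castS k (Xh M q) := by
  have : Fact q.Prime := ⟨hq⟩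
  have : CharP k q := (CharP.charP_iff_prime_eq_zero hq).2 h0
  refine ⟨⟨castS k (Xh M q), ?_⟩, rfl⟩
  rw [Fermat.Agent.SS.GM2.castS_Xh]
  refine pow_mem ?_ _
  have h1 : castS k (Jh M) = Fermat.Agent.S28.V k M (Fermat.Agent.S28.J k) :=
    Fermat.Agent.Crux.GM.CoordJ.castS_VJ k M
  rw [h1]
  exact jqModCd_mem_full k M dvd_rfl

/-- `XD k q ∈ F_k(M)` for a subfield `k` of `k_A`. -/
theorem CQ_exists_Xb (M q : ℕ) [NeZero M] [NeZero q] (hq : q.Prime) (hqM : ¬ q ∣ M)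
    (A : ValuationSubring Qb) (hA : A.LiesOverPrime q) (k : Type) [Field k] (e₀ : k →+* kA A)
    (h0 : ((q : ℕ) : k) = 0) :
    ∃ Xb : modularFunctionFieldFullC k M, (Xb : LaurentSeries k) = XD k q := by
  refine ⟨⟨XD k q, ?_⟩, rfl⟩
  refine Fermat.Agent.Crux.GM.mem_full_of_coeffMap_mem M k (kA A) e₀ ?_ _ ?_
  · intro r hr hrM
    exact CQ_natCast_ne_zero hq h0 hr (fun h => hqM (h ▸ hrM))
  · rw [Fermat.Agent.S44.XD.coeffMap_XD, ← Fermat.Agent.S44.ResDeg.resF_eq_full M q hq hqM A hA]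
    exact Fermat.Agent.S44.Eis.XD_mem_resF hq hqM hA

/-- **the descent**: `NCK` gives the `NC` half of `ConstQ`. -/
theorem nc_of_nck (M q e : ℕ) [NeZero M] [NeZero q] (hq : q.Prime) (hqM : ¬ q ∣ M)
    (he : 0 < e) (h : NCK M q e) (A : ValuationSubring Qb) (hA : A.LiesOverPrime q)
    (f : Dm (M * q) e)
    (hf : ∀ n : ℤ, ((((f : (FF (M * q))ˣ) : FF (M * q)) : LaurentSeries Qb)).coeff n
      ∈ Fermat.Agent.S36.Base.L0 A) :
    ∃ c : ℤ, NC M A e ((((f : (FF (M * q))ˣ) : FF (M * q)) : LaurentSeries Qb) ^ (12 : ℤ)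
        * XD Qb q ^ (-c)) := by
  classical
  have : NeZero e := ⟨he.ne'⟩
  set W : FF (M * q) := ((f : (FF (M * q))ˣ) : FF (M * q)) with hW
  have hW0 : W ≠ 0 := Units.ne_zero _
  obtain ⟨K₀, hfin, hK, W₀, hW₀m, hW₀⟩ := exists_field_L0 (M * q) A W hf
  have hirr := irreducible_natCast_A0 hq hA K₀ hK
  have hnf : NumberField K₀ := ⟨⟩
  have hdvr : IsDiscreteValuationRing (A0 K₀ A) :=
    Crux.isDiscreteValuationRing_of_numberField _ (Crux.A0_ne_top K₀ A hq hA)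
  have hfinr : Finite (IsLocalRing.ResidueField (A0 K₀ A)) :=
    GM2.finite_residueField _ (Crux.A0_ne_top K₀ A hq hA)
  obtain ⟨w, hw⟩ := exists_isAL M q hq hqM
  obtain ⟨wK, hwK, -⟩ := GM2.exists_wK M q hq w hw K₀
  have hfd0 : FiniteDimensional Qb⟮S24.jN (M * q)⟯ (FF (M * q)) := S24.finiteDimensional_FN (M * q)
  have hfd : FiniteDimensional Qb⟮XF M q⟯ (FF (M * q)) :=
    S24.FF.finiteDimensional_of_transcendental Qb (S24.jN (M * q)) (GM2.transcendental_XF M q)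
  have hXm : coeffMap (algebraMap K₀ Qb) (castS K₀ (Xh M q)) = (XF M q : LaurentSeries Qb) := by
    rw [Crux.GM.coeffMap_castS]; rfl
  have I2 : GM2.InvKq K₀ (M * q) e (castS K₀ (Xh M q)) W₀ :=
    Fermat.Agent.S44.Cover.invKq_K0 (M * q) e he (castS K₀ (Xh M q)) W₀ (XF M q) W hXm hW₀ hW0
      (fun P => f.2 P)
  have hW₀0 : (⟨W₀, hW₀m⟩ : modularFunctionFieldFullC K₀ (M * q)) ≠ 0 := by
    intro h0
    have h1 : W₀ = 0 := congrArg Subtype.val h0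
    rw [h1, map_zero] at hW₀
    exact hW0 (Subtype.ext hW₀.symm)
  have hq0 : IsLocalRing.residue (A0 K₀ A) ((q : ℕ) : A0 K₀ A) = 0 :=
    Crux.residue_A0_natCast K₀ A hA
  have hq0' : ((q : ℕ) : IsLocalRing.ResidueField (A0 K₀ A)) = 0 := by
    rw [← hq0, map_natCast]
  obtain ⟨c, φ, d, hc, hφ, hred, hV⟩ := h (A := A0 K₀ A) (K := K₀)
    (k := IsLocalRing.ResidueField (A0 K₀ A))
    (IsLocalRing.residue (A0 K₀ A)) IsLocalRing.residue_surjective hq0 hirr wK hwK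
    ⟨W₀, hW₀m⟩ hW₀0 I2
  obtain ⟨xb, hxb⟩ := CQ_exists_xb M q hq (IsLocalRing.ResidueField (A0 K₀ A)) hq0'
  obtain ⟨Xb, hXb⟩ := CQ_exists_Xb M q hq hqM A hA (IsLocalRing.ResidueField (A0 K₀ A))
    (IsLocalRing.ResidueField.map (Fermat.Agent.S44.ResDeg.incl K₀ A)) hq0'
  refine ⟨-d, ?_⟩
  rw [neg_neg]
  refine nc_of_ncv2 hq hA (Fermat.Agent.S44.Const.Places.compat_A0 A K₀) W hW₀ hc φ xb Xb hφ hxb hXb
    hred 12 d ?_
  intro V hxV
  obtain ⟨η, hη, hu⟩ := hV V xb Xb hxb hXb hxV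
  refine ⟨η, hη, ?_⟩
  have e1 : (φ ^ (12 : ℤ) : modularFunctionFieldFullC (IsLocalRing.ResidueField (A0 K₀ A)) M)
      = φ ^ 12 := zpow_ofNat φ 12
  rw [e1]
  exact hu

end Fermat.Agent.S43.I.CQ
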