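import Fermat.Agent.S44.Const.Field
import Fermat.Agent.S36.Base.DescentL0
import Fermat.Agent.S36.Norm.KForm.Basic

/-!
# S43 / I / CQ / FieldQ : the field package of (CQ5)

`A` a valuation ring of `ℚ̄` over `q`, `L0 A` the inertia field.

* `exists_fieldQ`      : a function `f ∈ FF N` with all coefficients in `L0 A` has all its coefficients in a number field `K₀ ≤ L0 A`
                         (which can be chosen to contain any given number field `K₁ ≤ L0 A`);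
* `maximalIdeal_A0_q`, `irreducible_q` : for every number field `K₀ ≤ L0 A`, `q` is a uniformiser of `A₀ = A ∩ K₀` (`Crux.A0 K₀ A`);
* `exists_packageQ`    : the complete package.
-/

set_option autoImplicit false

open AlgebraicCurve ModularCurve

namespace Fermat.Agent.S43.I.CQ

open Fermat.Agent.ES
open Fermat.Agent.Crux (A0)
open Fermat.Agent.S36.Base (L0)

noncomputable section

/-- the coefficients of a function lie in a number field. -/
theorem exists_fieldQ {N : ℕ} [NeZero N] {A : ValuationSubring Qb}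
    (K₁ : IntermediateField ℚ Qb) [FiniteDimensional ℚ K₁] (hK₁ : K₁ ≤ L0 A) (f : FF N)
    (hf : ∀ n : ℤ, (f : LaurentSeries Qb).coeff n ∈ L0 A) :
    ∃ K₀ : IntermediateField ℚ Qb, FiniteDimensional ℚ K₀ ∧ K₁ ≤ K₀ ∧ K₀ ≤ L0 A ∧
      ∀ n : ℤ, (f : LaurentSeries Qb).coeff n ∈ K₀ := by
  obtain ⟨L, hL, hfix⟩ := exists_finite_level N f
  have hac : IsAlgClosure ℚ Qb :=
    (inferInstance : @IsAlgClosure ℚ (AlgebraicClosure ℚ) _ _ (AlgebraicClosure.instAlgebra ℚ) _)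
  have hgal : IsGalois ℚ Qb := IsAlgClosure.isGalois ℚ Qb
  have hfd : FiniteDimensional ℚ (L ⊓ L0 A : IntermediateField ℚ Qb) :=
    FiniteDimensional.of_injective
      (IntermediateField.inclusion (inf_le_left : L ⊓ L0 A ≤ L)).toLinearMap
      (IntermediateField.inclusion (inf_le_left : L ⊓ L0 A ≤ L)).injective
  refine ⟨K₁ ⊔ (L ⊓ L0 A), inferInstance, le_sup_left, sup_le hK₁ inf_le_right, fun n => ?_⟩
  refine (le_sup_right : L ⊓ L0 A ≤ K₁ ⊔ (L ⊓ L0 A)) ⟨?_, hf n⟩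
  have h1 : (f : LaurentSeries Qb).coeff n ∈ IntermediateField.fixedField L.fixingSubgroup := by
    rw [IntermediateField.mem_fixedField_iff]
    intro g hg
    rw [IntermediateField.mem_fixingSubgroup_iff] at hg
    have h2 := congrArg (fun u : FF N => (u : LaurentSeries Qb).coeff n) (hfix g hg)
    simpa [coe_galF] using h2
  rwa [InfiniteGalois.fixedField_fixingSubgroup] at h1

section Unif

variable {q : ℕ} {A : ValuationSubring Qb}

theorem natCast_mem_A (A : ValuationSubring Qb) (n : ℕ) : (n : Qb) ∈ A := natCast_mem A n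

/-- `q` generates the maximal ideal of `A₀ = A ∩ K₀` for `K₀ ≤ L0 A`. -/
theorem maximalIdeal_A0_q (hq : q.Prime) (hA : A.LiesOverPrime q) (K₀ : IntermediateField ℚ Qb)
    (hK : K₀ ≤ L0 A) :
    IsLocalRing.maximalIdeal (A0 K₀ A) = Ideal.span {((q : ℕ) : A0 K₀ A)} := by
  have hq0 : (q : Qb) ≠ 0 := Nat.cast_ne_zero.2 hq.ne_zero
  apply le_antisymm
  · intro x hx
    by_cases hx0 : (x : K₀) = 0
    · have : x = 0 := Subtype.ext hx0
      rw [this]
      exact zero_mem _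
    rw [← IsLocalRing.residue_eq_zero_iff, Crux.residue_eq_zero_iff_not_inv_mem] at hx
    have hx1 : ((x : K₀) : Qb)⁻¹ ∉ A := by
      have h := hx.resolve_left hx0
      rw [ValuationSubring.mem_comap, map_inv₀] at h
      exact h
    have hX0 : ((x : K₀) : Qb) ≠ 0 := fun h => hx0 (Subtype.ext h)
    obtain ⟨k, hk1, hk2⟩ := Fermat.Agent.S36.Base.exists_zpow_mul_mem hq hA
      (hK (x : K₀).2) hX0
    have hkneg : k < 0 := by
      by_contra hk
      push Not at hk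
      apply hx1
      obtain ⟨m, rfl⟩ := Int.eq_ofNat_of_zero_le hk
      have e : ((x : K₀) : Qb)⁻¹ = (((x : K₀) : Qb) * (q : Qb) ^ (m : ℤ))⁻¹ * (q : Qb) ^ m := by
        rw [zpow_natCast, mul_inv, mul_assoc, inv_mul_cancel₀ (pow_ne_zero m hq0), mul_one]
      rw [e]
      exact A.mul_mem _ _ hk2 (pow_mem (natCast_mem_A A q) m)
    obtain ⟨m, hm⟩ : ∃ m : ℕ, k = -((m : ℤ) + 1) := ⟨(-k - 1).toNat, by omega⟩
    rw [Ideal.mem_span_singleton']
    have hdiv : (x : K₀) / ((q : ℕ) : K₀) ∈ A0 K₀ A := by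
      rw [ValuationSubring.mem_comap]
      show ((x : K₀) : Qb) / ((q : ℕ) : Qb) ∈ A
      have e : ((x : K₀) : Qb) / ((q : ℕ) : Qb) = (((x : K₀) : Qb) * (q : Qb) ^ k) * (q : Qb) ^ m := by
        rw [hm, zpow_neg, zpow_add₀ hq0, zpow_natCast, zpow_one]
        field_simp
      rw [e]
      exact A.mul_mem _ _ hk1 (pow_mem (natCast_mem_A A q) m)
    refine ⟨⟨_, hdiv⟩, ?_⟩
    apply Subtype.ext
    show (x : K₀) / ((q : ℕ) : K₀) * ((q : ℕ) : K₀) = (x : K₀)
    have hne : ((q : ℕ) : K₀) ≠ 0 := Nat.cast_ne_zero.2 hq.ne_zero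
    rw [div_mul_cancel₀ _ hne]
  · rw [Ideal.span_singleton_le_iff_mem, ← IsLocalRing.residue_eq_zero_iff]
    exact Crux.residue_A0_natCast K₀ A hA

/-- `q` is a uniformiser of `A₀`. -/
theorem irreducible_q (hq : q.Prime) (hA : A.LiesOverPrime q) (K₀ : IntermediateField ℚ Qb)
    [FiniteDimensional ℚ K₀] (hK : K₀ ≤ L0 A) : Irreducible ((q : ℕ) : A0 K₀ A) :=
  haveI := Fermat.Agent.S44.Const.isDVR_A0 hq hA K₀
  (IsDiscreteValuationRing.irreducible_iff_uniformizer _).mpr (maximalIdeal_A0_q hq hA K₀ hK)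

end Unif

/-- **The complete package** of (CQ5). -/
theorem exists_packageQ {N q : ℕ} [NeZero N] (hq : q.Prime) {A : ValuationSubring Qb}
    (hA : A.LiesOverPrime q) (K₁ : IntermediateField ℚ Qb) [FiniteDimensional ℚ K₁]
    (hK₁ : K₁ ≤ L0 A) (f : FF N) (hf : ∀ n : ℤ, (f : LaurentSeries Qb).coeff n ∈ L0 A) :
    ∃ (K₀ : IntermediateField ℚ Qb) (_ : NumberField K₀), K₁ ≤ K₀ ∧ K₀ ≤ L0 A ∧
      IsDiscreteValuationRing (A0 K₀ A) ∧ Finite (IsLocalRing.ResidueField (A0 K₀ A)) ∧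
      Irreducible ((q : ℕ) : A0 K₀ A) ∧
      ∃ f₀ : modularFunctionFieldFullC K₀ N,
        coeffMap (algebraMap K₀ Qb) (f₀ : LaurentSeries K₀) = (f : LaurentSeries Qb) := by
  obtain ⟨K₀, hfd, h1, h2, h3⟩ := exists_fieldQ K₁ hK₁ f hf
  obtain ⟨f₀, hf₀⟩ := Fermat.Agent.S36.Norm.KForm.exists_beta_eq K₀ N f
    (fun n => ⟨⟨_, h3 n⟩, rfl⟩)
  refine ⟨K₀, ⟨⟩, h1, h2, Fermat.Agent.S44.Const.isDVR_A0 hq hA K₀,
    Fermat.Agent.S44.Const.finite_res_A0 hq hA K₀, irreducible_q hq hA K₀ h2, f₀, ?_⟩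
  rw [← hf₀]
  rfl

end

end Fermat.Agent.S43.I.CQ
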