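import Fermat.Agent.S43.I.InvDefs
import Fermat.Agent.S43.I.CQ.Cusp
import Fermat.Agent.S43.I.CQ.Places2
import Fermat.Agent.S43.NC.AbsX
import Fermat.Agent.S43.Q.Inst
import Fermat.Agent.S43.QF.Coeff

/-!
# S43 / I / CQ / Main : `ConstQ M q e` (assembly)

`QF.exists_pkg_L0` (field package over the inertia field) + `Q.exists_ctxQ` / `Q.wK_XD` (`π = q`, ramification `1`) + `NC.absXQ` (chart `X`)
+ `CQ.nc_of_ncv2` (places) + `CQ.cuspP2` (cusps).
-/

set_option autoImplicit false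
set_option linter.unusedSectionVars false
set_option linter.style.haveILetI false

open Polynomial ModularCurve AlgebraicCurve

namespace Fermat.Agent.S43.I.CQ

open Fermat.Agent.Crux.G Fermat.Agent.SS.G2 Fermat.Agent.S44.Loc Fermat.Agent.SS.GM2
open Fermat.Agent.S44.Bridge Fermat.Agent.S43.Q
open Fermat.Agent.Crux.GM (castS)
open Fermat.Agent.Crux (A0)
open Fermat.Agent.ES (Qb FF Dm)
open Fermat.Agent.S44

noncomputable section

section Xb

variable {M ℓ : ℕ} [NeZero M] [NeZero ℓ]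
variable {A K k : Type} [CommRing A] [IsDomain A] [IsDiscreteValuationRing A] [Field K]
  [CharZero K] [Algebra A K] [IsFractionRing A K] [Field k] [Finite k]
  {r : A →+* k} {π : A}
variable {F : Type} [Field F] [Algebra A F] {Φ : F →+* LaurentSeries K} {w : F →+* F}
variable {E : Type} [Field E] [CharZero E] [Algebra A E] [Algebra E F] [IsScalarTower A E F]
  [FiniteDimensional E F]
variable {X : E}

/-- `castS k (Xh M ℓ)` and `XD k ℓ` lie in `F_k(M)`. -/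
theorem exists_xbQ (C : CtxQ M ℓ r π Φ w X) {e : ℕ} (he : 0 < e) {u u' : A} (hu : u * u' = 1)
    (hℓe : (ℓ : A) = π ^ e * u) :
    ∃ xb Xb : modularFunctionFieldFullC k M, (xb : LaurentSeries k) = castS k (Xh M ℓ) ∧
      (Xb : LaurentSeries k) = XD.XD k ℓ := by
  classical
  letI := algL (A := A) F X
  obtain ⟨i1, i2, i3⟩ := chart_inst (F := F) C.hXt C.hgen
  haveI := i1
  haveI := i2
  haveI := i3
  obtain ⟨B, G, -⟩ := C.exists_good0
  obtain ⟨X₀, U, ε, hX, hXU, hε, -, hX₀⟩ := C.exists_XData he hu hℓe G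
  exact ⟨G.rL (algebraMap A[X] (SM A F) Polynomial.X), G.rL X₀, G.coe_rL_X,
    by rw [G.coe_rL, hX₀]⟩

end Xb

set_option maxHeartbeats 1600000 in
/-- **CONST_q.** -/
theorem constQ (M q e : ℕ) [NeZero M] [NeZero q] (hq : q.Prime) (hqM : ¬ q ∣ M)
    (hadm : Fermat.Agent.Crux.Admissible q M) (he : 0 < e) (he12 : Nat.Coprime e 12) :
    Fermat.Agent.S43.I.ConstQ M q e := by
  intro A hA f hf
  haveI : NeZero e := ⟨he.ne'⟩
  haveI : Fact q.Prime := ⟨hq⟩
  obtain ⟨w, hw⟩ := Fermat.Agent.SS.exists_isAL M q hq hqM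
  obtain ⟨K₀, iN, iD, iFin, wK, W₀, hirr, -, hwK, hwK', hW₀, hinv, -⟩ :=
    Fermat.Agent.S43.QF.exists_pkg_L0 hq he hA w hw f hf
  obtain ⟨iC, F, E, iF, iAF, iE, iE0, iAE, iEF, iT, iFD, Φ, w', X, C, hdict⟩ :=
    exists_ctxQ M q hq hqM hadm (A := A0 K₀ A) (K := K₀)
      (k := IsLocalRing.ResidueField (A0 K₀ A))
      (IsLocalRing.residue (A0 K₀ A)) IsLocalRing.residue_surjective
      (Fermat.Agent.Crux.residue_A0_natCast K₀ A hA) (q : A0 K₀ A) hirr wK hwK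
      (wK_XD hw wK hwK')
  obtain ⟨W, hW, -⟩ := hdict W₀
  have hf0 : (((f : (FF (M * q))ˣ) : FF (M * q)) : LaurentSeries Qb) ≠ 0 :=
    fun h0 => (f : (FF (M * q))ˣ).ne_zero (Subtype.ext h0)
  have hW0 : W ≠ 0 := by
    rintro rfl
    rw [map_zero] at hW
    rw [← hW] at hW₀
    exact hf0 (by rw [← hW₀]; exact map_zero _)
  have hle : ((q : ℕ) : A0 K₀ A) = (q : A0 K₀ A) ^ 1 * 1 := by rw [pow_one, mul_one]
  obtain ⟨xb, Xb, hxb, hXb⟩ := exists_xbQ C one_pos (one_mul (1 : A0 K₀ A)) hle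
  obtain ⟨a', c', φ, hφ0, hred, hncv⟩ := Fermat.Agent.S43.NC.absXQ C one_pos
    (one_mul (1 : A0 K₀ A)) hle he (by rw [mul_one]; exact he12) hW0 (by rw [hW]; exact hinv)
    xb Xb hxb hXb
  have hπK : algebraMap (A0 K₀ A) K₀ (q : A0 K₀ A) ≠ 0 := by
    rw [Ne, map_eq_zero_iff _ (IsFractionRing.injective (A0 K₀ A) K₀)]
    exact hirr.ne_zero
  refine ⟨-c', cuspP2 M q e hq hqM hadm he A hA f, ?_⟩
  rw [neg_neg]
  refine nc_of_ncv2 hq hA (Fermat.Agent.S44.Const.Places.compat_A0 A K₀)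
    ((f : (FF (M * q))ˣ) : FF (M * q)) (f' := (W₀ : LaurentSeries K₀)) hW₀
    (γ := algebraMap (A0 K₀ A) K₀ (q : A0 K₀ A) ^ (-a')) (zpow_ne_zero _ hπK) φ xb Xb hφ0 hxb hXb
    ?_ 12 c' ?_
  · rw [map_zpow₀, ← hW]
    exact hred
  · intro V hV
    obtain ⟨y, hy, hu⟩ := hncv V hV
    refine ⟨y, hy, ?_⟩
    have e1 : (φ ^ (12 : ℤ) : modularFunctionFieldFullC _ M) = φ ^ (12 * 1) := by
      rw [mul_one]; exact zpow_natCast φ 12
    rw [e1]
    exact hu

end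

end Fermat.Agent.S43.I.CQ
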